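import Fermat.Agent.MUL.Orig.Lib.Frobenius.Basic
import Fermat.Agent.MUL.F3.DictC.EmbF

set_option autoImplicit false

/-!
# Valuation subrings of `ℚ̄` are localisations of the ring of algebraic integers

Key lemma (`exists_integral_mul`): if `x` lies in a valuation subring `V` of `ℚ̄`, then there is an
algebraic integer `s` which is a unit of `V` such that `s * x` is an algebraic integer.
-/

namespace Fermat.Agent.FrobExists

open Polynomial

attribute [local instance] isAlgebraic_Qb isAlgClosure_Qb

/-- The Horner tails `a_m + a_{m+1} x + a_{m+2} x^2 + ⋯` of an integer polynomial at `x`. -/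
noncomputable def hornerTail (x : Qb) (p : ℤ[X]) (m : ℕ) : Qb := aeval x (divX^[m] p)

lemma hornerTail_zero (x : Qb) (p : ℤ[X]) : hornerTail x p 0 = aeval x p := rfl

lemma coeff_zero_iterate_divX (p : ℤ[X]) (m : ℕ) : (divX^[m] p).coeff 0 = p.coeff m := by
  induction m generalizing p with
  | zero => rfl
  | succ m ih => rw [Function.iterate_succ_apply, ih, coeff_divX]

lemma hornerTail_succ (x : Qb) (p : ℤ[X]) (m : ℕ) :
    hornerTail x p m = x * hornerTail x p (m + 1) + (p.coeff m : Qb) := by
  unfold hornerTail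
  rw [Function.iterate_succ_apply']
  have h := congrArg (aeval x) (divX_mul_X_add (divX^[m] p))
  rw [map_add, map_mul, aeval_X, aeval_C, coeff_zero_iterate_divX] at h
  rw [← h]
  simp only [eq_intCast]
  ring

lemma hornerTail_mem_valuationSubring (W : ValuationSubring Qb) (x : Qb) (p : ℤ[X])
    (hp : aeval x p = 0) (m : ℕ) : hornerTail x p m ∈ W := by
  by_cases hx : x ∈ W
  · unfold hornerTail
    rw [aeval_eq_sum_range]
    refine W.toSubring.sum_mem fun i _ => ?_
    exact W.toSubring.zsmul_mem (W.toSubring.pow_mem hx i) _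
  · have hxinv : x⁻¹ ∈ W := (W.mem_or_inv_mem x).resolve_left hx
    have hx0 : x ≠ 0 := fun h => hx (h ▸ W.zero_mem)
    induction m with
    | zero => rw [hornerTail_zero, hp]; exact W.zero_mem
    | succ m ih =>
      have h := hornerTail_succ x p m
      have h2 : hornerTail x p (m + 1) = x⁻¹ * (hornerTail x p m - (p.coeff m : Qb)) := by
        rw [h]; field_simp; ring
      rw [h2]
      exact W.mul_mem _ _ hxinv (W.toSubring.sub_mem ih (intCast_mem W.toSubring _))

lemma isIntegral_hornerTail (x : Qb) (p : ℤ[X]) (hp : aeval x p = 0) (m : ℕ) :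
    IsIntegral ℤ (hornerTail x p m) := by
  by_contra h
  have hR : hornerTail x p m ∉ (integralClosure ℤ Qb).toSubring := h
  obtain ⟨W, -, hW⟩ := Subring.exists_le_valuationSubring_of_isIntegrallyClosedIn hR
  exact hW (hornerTail_mem_valuationSubring W x p hp m)

lemma exists_isPrimitive_aeval_eq_zero (x : Qb) :
    ∃ p : ℤ[X], p.IsPrimitive ∧ aeval x p = 0 := by
  have hx : IsAlgebraic ℚ x := Algebra.IsAlgebraic.isAlgebraic x
  have hx' : IsAlgebraic ℤ x := (IsFractionRing.isAlgebraic_iff ℤ ℚ Qb).mpr hx
  obtain ⟨p, hp0, hp⟩ := hx'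
  exact ⟨p.primPart, isPrimitive_primPart p, aeval_primPart_eq_zero hp0 hp⟩

lemma mul_mem_nonunits_of_mem (V : ValuationSubring Qb) {y z : Qb} (hz : z ∈ V)
    (hy : y ∈ V.nonunits) : z * y ∈ V.nonunits := by
  rw [ValuationSubring.mem_nonunits_iff] at hy ⊢
  rw [map_mul]
  have hz' : V.valuation z ≤ 1 := (V.valuation_le_one_iff z).mpr hz
  calc V.valuation z * V.valuation y ≤ 1 * V.valuation y := mul_le_mul_left hz' _
    _ = V.valuation y := one_mul _
    _ < 1 := hy

/-- **Key lemma.** Every element of a valuation subring `V` of `ℚ̄` is a quotient of two algebraic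
integers, with denominator a unit of `V`. -/
theorem exists_integral_mul (V : ValuationSubring Qb) (x : Qb) (hx : x ∈ V) :
    ∃ s : Qb, IsIntegral ℤ s ∧ s ∉ V.nonunits ∧ IsIntegral ℤ (s * x) := by
  obtain ⟨p, hprim, hp⟩ := exists_isPrimitive_aeval_eq_zero x
  by_contra hcon
  -- all Horner tails of positive index are non-units of `V`
  have htail : ∀ m : ℕ, hornerTail x p (m + 1) ∈ V.nonunits := by
    intro m
    by_contra hm
    refine hcon ⟨_, isIntegral_hornerTail x p hp (m + 1), hm, ?_⟩
    have h := hornerTail_succ x p m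
    have h2 : hornerTail x p (m + 1) * x = hornerTail x p m - (p.coeff m : Qb) := by
      rw [h]; ring
    rw [h2]
    exact (isIntegral_hornerTail x p hp m).sub isIntegral_algebraMap
  have htail0 : ∀ m : ℕ, hornerTail x p m ∈ V.nonunits := by
    intro m
    cases m with
    | zero => rw [hornerTail_zero, hp]; exact V.nonunits.zero_mem
    | succ m => exact htail m
  -- hence all coefficients are non-units of `V`
  have hcoeff : ∀ m : ℕ, ((p.coeff m : ℤ) : Qb) ∈ V.nonunits := by
    intro m
    have h := hornerTail_succ x p m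
    have h2 : ((p.coeff m : ℤ) : Qb) = hornerTail x p m - x * hornerTail x p (m + 1) := by
      rw [h]; ring
    rw [h2]
    exact V.nonunits.sub_mem (htail0 m) (mul_mem_nonunits_of_mem V hx (htail m))
  -- the ideal of integers that are non-units of `V`
  let I : Ideal ℤ := Ideal.comap (Int.castRingHom V) (IsLocalRing.maximalIdeal V)
  have hI : ∀ n : ℤ, n ∈ I ↔ (n : Qb) ∈ V.nonunits := by
    intro n
    rw [Ideal.mem_comap, ← ValuationSubring.coe_mem_nonunits_iff]
    simp
  have hItop : I ≠ ⊤ := by
    intro h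
    have h1 : (1 : ℤ) ∈ I := h ▸ Submodule.mem_top
    rw [hI, ValuationSubring.mem_nonunits_iff] at h1
    simp at h1
  obtain ⟨d, hd⟩ : ∃ d : ℤ, I = Ideal.span {d} :=
    ⟨_, (Submodule.IsPrincipal.span_singleton_generator I).symm⟩
  have hdvd : C d ∣ p := by
    rw [C_dvd_iff_dvd_coeff]
    intro i
    rw [← Ideal.mem_span_singleton, ← hd, hI]
    exact hcoeff i
  have hunit : IsUnit d := hprim d hdvd
  exact hItop (hd ▸ Ideal.span_singleton_eq_top.mpr hunit)

end Fermat.Agent.FrobExists
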