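import Fermat.Agent.MUL.Orig.Lib.Frobenius.Basic
import Fermat.Agent.MUL.Orig.Lib.Frobenius.KeyLemma
import Fermat.Agent.MUL.F3.DictC.GlobalDatum

set_option autoImplicit false

/-!
# Existence of Frobenius elements in `Gal(ℚ̄/ℚ)`

For every prime `ℓ` there are a valuation subring `A` of `AlgebraicClosure ℚ` lying over `ℓ`
(in the prelude's sense `ValuationSubring.LiesOverPrime`) and an element `σ` of the absolute
Galois group which is a Frobenius at `A` (`ValuationSubring.IsFrobeniusAt`).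
-/

namespace Fermat.Agent.FrobExists

open scoped Pointwise
open IsLocalRing

attribute [local instance] isAlgebraic_Qb isAlgClosure_Qb isInvariant_Zb

theorem int_prime_dvd_pow_sub_self_h53 (ℓ : ℕ) (hℓ : ℓ.Prime) (n : ℤ) :
    (ℓ : ℤ) ∣ n ^ ℓ - n := by
  have : Fact ℓ.Prime := ⟨hℓ⟩
  rw [← ZMod.intCast_zmod_eq_zero_iff_dvd]
  push_cast
  rw [ZMod.pow_card, sub_self]

/-- Frobenius surjectivity at a prime `Q` of the ring of algebraic integers: if `Q` contains
the prime number `ℓ`, some element of the stabiliser of `Q` acts as `x ↦ x ^ ℓ` modulo `Q`. -/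
theorem frobMod_exists_h53 (ℓ : ℕ) (hℓ : ℓ.Prime) (Q : Ideal Zb) [hQ : Q.IsPrime]
    (hℓQ : (ℓ : Zb) ∈ Q) :
    ∃ σ : GQ, σ • Q = Q ∧ ∀ b : Zb, σ • b - b ^ ℓ ∈ Q := by
  let _ : TopologicalSpace Zb := ⊥
  have : DiscreteTopology Zb := ⟨rfl⟩
  have := continuousSMul_Zb
  let P : Ideal ℤ := Q.under ℤ
  have hℓP : (ℓ : ℤ) ∈ P := by
    change (ℓ : ℤ) ∈ Ideal.comap (algebraMap ℤ Zb) Q
    rw [Ideal.mem_comap]
    simpa using hℓQ
  have hP0 : P ≠ ⊥ := by
    intro h
    rw [h, Ideal.mem_bot] at hℓP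
    exact hℓ.ne_zero (by exact_mod_cast hℓP)
  have hPmax : P.IsMaximal := IsPrime.to_maximal_ideal hP0
  have hQmax : Q.IsMaximal := Ideal.isMaximal_of_isIntegral_of_isMaximal_comap Q hPmax
  let _ := Ideal.Quotient.field Q
  have hchar : CharP (Zb ⧸ Q) ℓ := by
    have h0 : ((ℓ : ℕ) : Zb ⧸ Q) = 0 := by
      have := Ideal.Quotient.eq_zero_iff_mem.mpr hℓQ
      simpa using this
    exact (CharP.charP_iff_prime_eq_zero hℓ).mpr h0
  have : ExpChar (Zb ⧸ Q) ℓ := .prime hℓ
  let F : (Zb ⧸ Q) →ₐ[ℤ ⧸ P] (Zb ⧸ Q) :=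
    { frobenius (Zb ⧸ Q) ℓ with
      commutes' := by
        intro r
        obtain ⟨n, rfl⟩ := Ideal.Quotient.mk_surjective r
        change (Ideal.Quotient.mk Q (algebraMap ℤ Zb n)) ^ ℓ = Ideal.Quotient.mk Q (algebraMap ℤ Zb n)
        rw [← map_pow, Ideal.Quotient.eq, ← map_pow, ← map_sub]
        obtain ⟨k, hk⟩ := int_prime_dvd_pow_sub_self_h53 ℓ hℓ n
        rw [hk, map_mul]
        apply Ideal.mul_mem_right
        simpa using hℓQ }
  have hbij := Algebra.IsAlgebraic.algHom_bijective F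
  let Fe := AlgEquiv.ofBijective F hbij
  obtain ⟨σ, hσ⟩ := Ideal.Quotient.stabilizerHom_surjective_of_profinite (G := GQ) P Q Fe
  refine ⟨σ.1, σ.2, fun b => ?_⟩
  rw [← Ideal.Quotient.eq]
  have := DFunLike.congr_fun hσ (Ideal.Quotient.mk Q b)
  rw [map_pow]
  exact this

/-- Algebraic integers lie in every valuation subring. -/
theorem mem_valuationSubring_of_isIntegral (V : ValuationSubring Qb) {x : Qb}
    (hx : IsIntegral ℤ x) : x ∈ V := by
  have h1 : IsIntegral V x := hx.tower_top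
  obtain ⟨y, hy⟩ := (IsIntegrallyClosed.isIntegral_iff (R := V) (K := Qb)).mp h1
  rw [← hy]
  exact y.2

/-- The inclusion of the algebraic integers in a valuation subring. -/
def inclV (V : ValuationSubring Qb) : Zb →+* V where
  toFun b := ⟨b.1, mem_valuationSubring_of_isIntegral V b.2⟩
  map_one' := rfl
  map_mul' _ _ := rfl
  map_zero' := rfl
  map_add' _ _ := rfl

@[simp] theorem coe_inclV (V : ValuationSubring Qb) (b : Zb) : ((inclV V b : V) : Qb) = b := rfl

/-- The centre of `V` on the algebraic integers. -/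
noncomputable def centre (V : ValuationSubring Qb) : Ideal Zb :=
  Ideal.comap (inclV V) (maximalIdeal V)

instance centre_isPrime (V : ValuationSubring Qb) : (centre V).IsPrime :=
  Ideal.comap_isPrime _ _

theorem mem_centre_iff (V : ValuationSubring Qb) (b : Zb) :
    b ∈ centre V ↔ (b : Qb) ∈ V.nonunits := by
  rw [centre, Ideal.mem_comap, ← ValuationSubring.coe_mem_nonunits_iff, coe_inclV]

/-- An automorphism stabilising the centre of `V` maps `V` into itself. -/
theorem apply_mem_of_smul_centre (V : ValuationSubring Qb) (τ : GQ) (hτ : τ • centre V = centre V)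
    {x : Qb} (hx : x ∈ V) : τ x ∈ V := by
  obtain ⟨s, hs, hsu, hsx⟩ := exists_integral_mul V x hx
  have hτs : (τ • (⟨s, hs⟩ : Zb)) ∉ centre V := by
    intro h
    rw [← hτ, Ideal.smul_mem_pointwise_smul_iff, mem_centre_iff] at h
    exact hsu h
  rw [mem_centre_iff] at hτs
  have hτs' : (τ s) ∉ V.nonunits := hτs
  have hτsV : τ s ∈ V := mem_valuationSubring_of_isIntegral V (hs.map τ)
  have hτsxV : τ (s * x) ∈ V := mem_valuationSubring_of_isIntegral V (hsx.map τ)
  have hne : τ s ≠ 0 := fun h => hτs' (h ▸ V.nonunits.zero_mem)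
  have hinv : (τ s)⁻¹ ∈ V := by
    by_contra hcon
    exact hτs' (V.mem_nonunits_iff_or.mpr (Or.inr hcon))
  have : τ x = (τ s)⁻¹ * τ (s * x) := by
    rw [map_mul, ← mul_assoc, inv_mul_cancel₀ hne, one_mul]
  rw [this]
  exact V.mul_mem _ _ hinv hτsxV

theorem mem_decompositionSubgroup_of_smul_centre (V : ValuationSubring Qb) (σ : GQ)
    (hσ : σ • centre V = centre V) : σ ∈ V.decompositionSubgroup ℚ := by
  have hσ' : σ⁻¹ • centre V = centre V := by
    conv_lhs => rw [← hσ]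
    rw [inv_smul_smul]
  rw [MulAction.mem_stabilizer_iff]
  ext x
  rw [ValuationSubring.mem_pointwise_smul_iff_inv_smul_mem]
  constructor
  · intro h
    have := apply_mem_of_smul_centre V σ hσ h
    simpa using this
  · intro h
    exact apply_mem_of_smul_centre V σ⁻¹ hσ' h

theorem exists_valuationSubring_liesOver (ℓ : ℕ) (hℓ : ℓ.Prime) :
    ∃ V : ValuationSubring Qb, V.LiesOverPrime ℓ := by
  let A : Subring Qb := ⊥
  let ℓA : A := ⟨(ℓ : Qb), natCast_mem _ ℓ⟩
  have hne : Ideal.span {ℓA} ≠ ⊤ := by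
    intro h
    rw [Ideal.span_singleton_eq_top] at h
    obtain ⟨c, hc⟩ := isUnit_iff_exists_inv.mp h
    obtain ⟨n, hn⟩ := Subring.mem_bot.mp c.2
    have h1 : (ℓ : Qb) * (n : Qb) = 1 := by
      rw [hn]
      exact congrArg Subtype.val hc
    have h2 : (ℓ : ℤ) * n = 1 := by exact_mod_cast h1
    have h3 : IsUnit (ℓ : ℤ) := IsUnit.of_mul_eq_one _ h2
    have h4 := Int.isUnit_iff.mp h3
    have h5 := hℓ.one_lt
    omega
  obtain ⟨V, -, hV⟩ := Ideal.image_subset_nonunits_valuationSubring _ hne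
  exact ⟨V, hV ⟨ℓA, Ideal.subset_span rfl, rfl⟩⟩

/-- **Existence of Frobenius elements.** -/
theorem exists_frobenius (ℓ : ℕ) (hℓ : ℓ.Prime) :
    ∃ (A : ValuationSubring (AlgebraicClosure ℚ))
      (σ : AlgebraicClosure ℚ ≃ₐ[ℚ] AlgebraicClosure ℚ),
      A.LiesOverPrime ℓ ∧ A.IsFrobeniusAt σ ℓ := by
  obtain ⟨V, hV⟩ := exists_valuationSubring_liesOver ℓ hℓ
  have hℓQ : (ℓ : Zb) ∈ centre V := by
    rw [mem_centre_iff]
    exact hV
  obtain ⟨σ, hσQ, hσ⟩ := frobMod_exists_h53 ℓ hℓ (centre V) hℓQ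
  have hdec := mem_decompositionSubgroup_of_smul_centre V σ hσQ
  refine ⟨V, σ, hV, hdec, fun x => ?_⟩
  obtain ⟨a, rfl⟩ := residue_surjective x
  obtain ⟨s, hs, hsu, hsx⟩ := exists_integral_mul V a.1 a.2
  let g : V.decompositionSubgroup ℚ := ⟨σ, hdec⟩
  let sZ : Zb := ⟨s, hs⟩
  let bZ : Zb := ⟨s * a, hsx⟩
  let r : Zb →+* ResidueField V := (residue V).comp (inclV V)
  have hr : ∀ b : Zb, b ∈ centre V → r b = 0 := fun b hb =>
    (residue_eq_zero_iff _).mpr hb
  have hrσ : ∀ b : Zb, r (σ • b) = r b ^ ℓ := by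
    intro b
    have := hr _ (hσ b)
    rwa [map_sub, map_pow, sub_eq_zero] at this
  have hrs : r sZ ≠ 0 := by
    intro h
    have : sZ ∈ centre V := (residue_eq_zero_iff _).mp h
    rw [mem_centre_iff] at this
    exact hsu this
  have e1 : inclV V sZ * a = inclV V bZ := Subtype.ext rfl
  have e2 : inclV V (σ • sZ) * (g • a) = inclV V (σ • bZ) := by
    apply Subtype.ext
    change σ s * σ a = σ (s * a)
    rw [map_mul]
  have e3 : r (σ • sZ) * residue V (g • a) = r (σ • bZ) := by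
    have := congrArg (residue V) e2
    rwa [map_mul] at this
  have e4 : r bZ = r sZ * residue V a := by
    have := congrArg (residue V) e1
    rw [map_mul] at this
    exact this.symm
  rw [hrσ, hrσ, e4, mul_pow] at e3
  have e5 := mul_left_cancel₀ (pow_ne_zero ℓ hrs) e3
  exact e5

end Fermat.Agent.FrobExists
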